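/-
S19 block LOC (architect helper32).  Definitions.

`IsSI A ψ` : on the inertia group `I_A` the function `ψ : Gal → ℚ̄` has the shape
`σ ↦ ∑ a_k σ(c_k)` with `a_k, c_k ∈ A`.
-/
import Fermat.Agent.S19.T.Defs

set_option autoImplicit false

namespace Fermat.Agent.S19

/-- `ψ σ = ∑ a_k σ(c_k)` on the inertia group of `A`, with `a_k, c_k ∈ A`. -/
def IsSI (A : ValuationSubring Qb) (ψ : Gal → Qb) : Prop :=
  ∃ (m : ℕ) (a c : Fin m → Qb), (∀ k, a k ∈ A) ∧ (∀ k, c k ∈ A) ∧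
    ∀ σ ∈ A.inertiaSubgroupIn ℚ, ψ σ = ∑ k, a k * σ (c k)

end Fermat.Agent.S19
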