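/-
S19 block LOC, calculus of `IsSI`.
(architect helper32; proofs helper114).
-/
import Fermat.Agent.S19.Loc.Defs

set_option autoImplicit false

namespace Fermat.Agent.S19

variable {A : ValuationSubring Qb}

/-- inertia acts trivially modulo the maximal ideal -/
theorem inertia_sub_mem_nonunits {σ : Gal} (hσ : σ ∈ A.inertiaSubgroupIn ℚ) {a : Qb} (ha : a ∈ A) :
    σ a - a ∈ A.nonunits := by
  obtain ⟨⟨τ', hdec⟩, hτ, rfl⟩ := hσ
  have h0 : MulSemiringAction.toRingAut (A.decompositionSubgroup ℚ)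
      (IsLocalRing.ResidueField A) ⟨τ', hdec⟩ = 1 := hτ
  have h1 : (⟨τ', hdec⟩ : A.decompositionSubgroup ℚ) • IsLocalRing.residue A ⟨a, ha⟩
      = IsLocalRing.residue A ⟨a, ha⟩ := by
    have := congrArg (fun f => f (IsLocalRing.residue A ⟨a, ha⟩)) h0
    exact this
  rw [← IsLocalRing.ResidueField.residue_smul, ← sub_eq_zero, ← map_sub,
    IsLocalRing.residue_eq_zero_iff, A.valuation_lt_one_iff] at h1
  rw [A.mem_nonunits_iff]
  exact h1

theorem inertia_apply_mem {σ : Gal} (hσ : σ ∈ A.inertiaSubgroupIn ℚ) {a : Qb} (ha : a ∈ A) :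
    σ a ∈ A := by
  have h := A.nonunits_subset (inertia_sub_mem_nonunits hσ ha)
  have h2 : σ a = (σ a - a) + a := by ring
  rw [h2]
  exact A.add_mem _ _ h ha

/-- flexible index types -/
private theorem isSI_of_fintype {ι : Type} [Fintype ι] {ψ : Gal → Qb} (a c : ι → Qb)
    (ha : ∀ k, a k ∈ A) (hc : ∀ k, c k ∈ A)
    (h : ∀ σ ∈ A.inertiaSubgroupIn ℚ, ψ σ = ∑ k, a k * σ (c k)) : IsSI A ψ := by
  classical
  let e := Fintype.equivFin ι
  refine ⟨Fintype.card ι, fun k => a (e.symm k), fun k => c (e.symm k), fun k => ha _,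
    fun k => hc _, fun σ hσ => ?_⟩
  rw [h σ hσ]
  exact (Equiv.sum_comp e.symm (fun k => a k * σ (c k))).symm

theorem IsSI.congr {ψ ψ' : Gal → Qb} (h : IsSI A ψ)
    (h' : ∀ σ ∈ A.inertiaSubgroupIn ℚ, ψ' σ = ψ σ) : IsSI A ψ' := by
  obtain ⟨m, a, c, ha, hc, hs⟩ := h
  exact ⟨m, a, c, ha, hc, fun σ hσ => (h' σ hσ).trans (hs σ hσ)⟩

theorem IsSI.const {a : Qb} (ha : a ∈ A) : IsSI A (fun _ => a) :=
  ⟨1, fun _ => a, fun _ => 1, fun _ => ha, fun _ => A.one_mem, fun σ _ => by simp⟩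

theorem IsSI.apply {c : Qb} (hc : c ∈ A) : IsSI A (fun σ => σ c) :=
  ⟨1, fun _ => 1, fun _ => c, fun _ => A.one_mem, fun _ => hc, fun σ _ => by simp⟩

theorem IsSI.add {ψ ψ' : Gal → Qb} (h : IsSI A ψ) (h' : IsSI A ψ') :
    IsSI A (fun σ => ψ σ + ψ' σ) := by
  obtain ⟨m, a, c, ha, hc, hs⟩ := h
  obtain ⟨m', a', c', ha', hc', hs'⟩ := h'
  refine isSI_of_fintype (ι := Fin m ⊕ Fin m') (Sum.elim a a') (Sum.elim c c') ?_ ?_ ?_
  · rintro (k | k)
    · exact ha k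
    · exact ha' k
  · rintro (k | k)
    · exact hc k
    · exact hc' k
  · intro σ hσ
    simp only [Fintype.sum_sum_type, Sum.elim_inl, Sum.elim_inr]
    rw [hs σ hσ, hs' σ hσ]

theorem IsSI.mul {ψ ψ' : Gal → Qb} (h : IsSI A ψ) (h' : IsSI A ψ') :
    IsSI A (fun σ => ψ σ * ψ' σ) := by
  obtain ⟨m, a, c, ha, hc, hs⟩ := h
  obtain ⟨m', a', c', ha', hc', hs'⟩ := h'
  refine isSI_of_fintype (ι := Fin m × Fin m') (fun k => a k.1 * a' k.2)
    (fun k => c k.1 * c' k.2) (fun k => A.mul_mem _ _ (ha _) (ha' _))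
    (fun k => A.mul_mem _ _ (hc _) (hc' _)) ?_
  intro σ hσ
  rw [hs σ hσ, hs' σ hσ, Finset.sum_mul_sum, Fintype.sum_prod_type]
  refine Finset.sum_congr rfl fun i _ => Finset.sum_congr rfl fun j _ => ?_
  rw [map_mul]
  ring

theorem IsSI.sum {ι : Type} (t : Finset ι) (ψ : ι → Gal → Qb) (h : ∀ i ∈ t, IsSI A (ψ i)) :
    IsSI A (fun σ => ∑ i ∈ t, ψ i σ) := by
  classical
  induction t using Finset.induction_on with
  | empty => simpa using IsSI.const (A := A) A.zero_mem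
  | insert i t hi ih =>
    have h1 := (h i (Finset.mem_insert_self i t)).add
      (ih fun j hj => h j (Finset.mem_insert_of_mem hj))
    refine h1.congr fun σ _ => ?_
    rw [Finset.sum_insert hi]

theorem IsSI.prod {ι : Type*} (t : Finset ι) (ψ : ι → Gal → Qb) (h : ∀ i ∈ t, IsSI A (ψ i)) :
    IsSI A (fun σ => ∏ i ∈ t, ψ i σ) := by
  classical
  induction t using Finset.induction_on with
  | empty => simpa using IsSI.const (A := A) A.one_mem
  | insert i t hi ih =>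
    have h1 := (h i (Finset.mem_insert_self i t)).mul
      (ih fun j hj => h j (Finset.mem_insert_of_mem hj))
    refine h1.congr fun σ _ => ?_
    rw [Finset.prod_insert hi]

theorem IsSI.pow {ψ : Gal → Qb} (h : IsSI A ψ) (n : ℕ) : IsSI A (fun σ => ψ σ ^ n) := by
  induction n with
  | zero => simpa using IsSI.const (A := A) A.one_mem
  | succ n ih =>
    refine (ih.mul h).congr fun σ _ => ?_
    rw [pow_succ]

/-- values lie in `A` -/
theorem IsSI.mem {ψ : Gal → Qb} (h : IsSI A ψ) {σ : Gal} (hσ : σ ∈ A.inertiaSubgroupIn ℚ) :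
    ψ σ ∈ A := by
  obtain ⟨m, a, c, ha, hc, hs⟩ := h
  rw [hs σ hσ]
  exact A.toSubring.sum_mem fun k _ => A.mul_mem _ _ (ha k) (inertia_apply_mem hσ (hc k))

/-- the reduction of `ψ σ` does not depend on `σ` -/
theorem IsSI.sub_mem_nonunits {ψ : Gal → Qb} (h : IsSI A ψ) {σ : Gal}
    (hσ : σ ∈ A.inertiaSubgroupIn ℚ) : ψ σ - ψ 1 ∈ A.nonunits := by
  obtain ⟨m, a, c, ha, hc, hs⟩ := h
  rw [hs σ hσ, hs 1 (one_mem _), ← Finset.sum_sub_distrib, A.mem_nonunits_iff]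
  refine Valuation.map_sum_lt _ one_ne_zero fun k _ => ?_
  have h1 : a k * σ (c k) - a k * (1 : Gal) (c k) = a k * (σ (c k) - c k) := by
    rw [AlgEquiv.one_apply]; ring
  rw [h1, map_mul]
  have h2 : A.valuation (a k) ≤ 1 := (A.valuation_le_one_iff _).2 (ha k)
  have h3 : A.valuation (σ (c k) - c k) < 1 :=
    (A.mem_nonunits_iff).1 (inertia_sub_mem_nonunits hσ (hc k))
  exact lt_of_le_of_lt (mul_le_of_le_one_left' h2) h3

/-- hence `ψ` is unit valued as soon as `ψ 1` is a unit -/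
theorem IsSI.inv_mem {ψ : Gal → Qb} (h : IsSI A ψ) (h1 : (ψ 1)⁻¹ ∈ A) (h0 : ψ 1 ≠ 0) {σ : Gal}
    (hσ : σ ∈ A.inertiaSubgroupIn ℚ) : ψ σ ≠ 0 ∧ (ψ σ)⁻¹ ∈ A := by
  have h2 : A.valuation (ψ 1) = 1 := by
    have h3 : A.valuation (ψ 1) ≤ 1 := (A.valuation_le_one_iff _).2 (h.mem (one_mem _))
    have h4 : A.valuation (ψ 1)⁻¹ ≤ 1 := (A.valuation_le_one_iff _).2 h1
    rw [map_inv₀] at h4
    have h5 : A.valuation (ψ 1) ≠ 0 := (Valuation.ne_zero_iff _).2 h0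
    have h6 : 1 ≤ A.valuation (ψ 1) := by
      rwa [inv_le_one₀ (zero_lt_iff.2 h5)] at h4
    exact le_antisymm h3 h6
  have h7 : A.valuation (ψ σ - ψ 1) < 1 := (A.mem_nonunits_iff).1 (h.sub_mem_nonunits hσ)
  have h8 : A.valuation (ψ σ) = 1 := by
    have h9 : ψ σ = ψ 1 + (ψ σ - ψ 1) := by ring
    rw [h9, Valuation.map_add_eq_of_lt_left _ (by rw [h2]; exact h7), h2]
  have h10 : ψ σ ≠ 0 := by
    intro h11
    rw [h11, map_zero] at h8
    exact zero_ne_one h8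
  refine ⟨h10, ?_⟩
  rw [← A.valuation_le_one_iff, map_inv₀, h8, inv_one]

private theorem isSI_finite_values {ψ : Gal → Qb} (h : IsSI A ψ) :
    (ψ '' (A.inertiaSubgroupIn ℚ : Set Gal)).Finite := by
  obtain ⟨m, a, c, ha, hc, hs⟩ := h
  have hfin : (Set.pi Set.univ fun k : Fin m => (minpoly ℚ (c k)).rootSet Qb).Finite :=
    Set.Finite.pi fun k => Polynomial.rootSet_finite _ _
  refine (hfin.image fun r : Fin m → Qb => ∑ k, a k * r k).subset ?_
  rintro _ ⟨σ, hσ, rfl⟩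
  refine ⟨fun k => σ (c k), fun k _ => ?_, (hs σ hσ).symm⟩
  rw [Polynomial.mem_rootSet]
  refine ⟨minpoly.ne_zero ((AlgebraicClosure.isAlgebraic ℚ).isAlgebraic (c k)).isIntegral, ?_⟩
  have := Polynomial.aeval_algHom_apply (σ : Qb →ₐ[ℚ] Qb) (c k) (minpoly ℚ (c k))
  rw [minpoly.aeval, map_zero] at this
  exact this

private theorem isSI_exists_quot {ψ : Gal → Qb} (h : IsSI A ψ) (T : Finset Qb)
    (hT : ∀ y ∈ T, y⁻¹ ∈ A) :
    ∃ R : Gal → Qb, IsSI A R ∧ ∀ σ, 1 - ∏ y ∈ T, (1 - ψ σ * y⁻¹) = ψ σ * R σ := by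
  classical
  induction T using Finset.induction_on with
  | empty => exact ⟨fun _ => 0, IsSI.const A.zero_mem, fun σ => by simp⟩
  | insert y T hy ih =>
    obtain ⟨R, hR, hR'⟩ := ih fun z hz => hT z (Finset.mem_insert_of_mem hz)
    have hneg : (-1 : Qb) ∈ A := A.neg_mem _ A.one_mem
    have hfac : ∀ z ∈ T, IsSI A (fun σ => 1 - ψ σ * z⁻¹) := fun z hz => by
      have h1 := (IsSI.const (A := A) A.one_mem).add
        ((IsSI.const (A := A) hneg).mul
          (h.mul (IsSI.const (A := A) (hT z (Finset.mem_insert_of_mem hz)))))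
      exact h1.congr fun σ _ => by ring
    have hprod := IsSI.prod T (fun z σ => 1 - ψ σ * z⁻¹) hfac
    refine ⟨fun σ => R σ + y⁻¹ * ∏ z ∈ T, (1 - ψ σ * z⁻¹),
      hR.add ((IsSI.const (hT y (Finset.mem_insert_self y T))).mul hprod), fun σ => ?_⟩
    rw [Finset.prod_insert hy, mul_add, ← hR' σ]
    ring

/-- inverses: `ψ` takes finitely many values `y` on `I_A` (each `c_k` has finitely many conjugates),
`P := ∏ (T - y) ∈ A[T]` has a unit constant term and `P(ψ) = 0`, so `ψ⁻¹` is a polynomial in `ψ` with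
coefficients in `A`. -/
theorem IsSI.inv {ψ : Gal → Qb} (h : IsSI A ψ) (h1 : (ψ 1)⁻¹ ∈ A) (h0 : ψ 1 ≠ 0) :
    IsSI A (fun σ => (ψ σ)⁻¹) := by
  classical
  have hfin := isSI_finite_values h
  obtain ⟨R, hR, hR'⟩ := isSI_exists_quot h hfin.toFinset (by
    intro y hy
    rw [Set.Finite.mem_toFinset] at hy
    obtain ⟨σ, hσ, rfl⟩ := hy
    exact (h.inv_mem h1 h0 hσ).2)
  refine hR.congr fun σ hσ => ?_
  have hne := (h.inv_mem h1 h0 hσ).1
  have hmem : ψ σ ∈ hfin.toFinset := by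
    rw [Set.Finite.mem_toFinset]
    exact ⟨σ, hσ, rfl⟩
  have hz : ∏ y ∈ hfin.toFinset, (1 - ψ σ * y⁻¹) = 0 :=
    Finset.prod_eq_zero hmem (by rw [mul_inv_cancel₀ hne, sub_self])
  have h2 := hR' σ
  rw [hz, sub_zero] at h2
  exact (eq_inv_of_mul_eq_one_right h2.symm).symm

theorem IsSI.zpow {ψ : Gal → Qb} (h : IsSI A ψ) (h1 : (ψ 1)⁻¹ ∈ A) (h0 : ψ 1 ≠ 0) (n : ℤ) :
    IsSI A (fun σ => ψ σ ^ n) := by
  cases n with
  | ofNat n => simpa using h.pow n
  | negSucc n =>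
    refine ((h.inv h1 h0).pow (n + 1)).congr fun σ _ => ?_
    rw [zpow_negSucc, inv_pow]

theorem IsSI.div {ψ ψ' : Gal → Qb} (h : IsSI A ψ) (h' : IsSI A ψ') (h1 : (ψ' 1)⁻¹ ∈ A)
    (h0 : ψ' 1 ≠ 0) : IsSI A (fun σ => ψ σ / ψ' σ) :=
  (h.mul (h'.inv h1 h0)).congr fun σ _ => by rw [div_eq_mul_inv]

end Fermat.Agent.S19
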