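/-
S19 block LOC, (L1): `A`-valued inertia-equivariant functions lie in the `A`-span of the equivariant
integral functions.  Owner: helper183 (task 1640; architect helper32).
-/
import Fermat.Agent.S19.T.Descent
import Fermat.Agent.S19.T.Separate
import Fermat.Agent.S19.InSpan
import Fermat.Agent.Lib.Frobenius

set_option autoImplicit false

namespace Fermat.Agent.S19

variable {ℓ : ℕ} [Fact ℓ.Prime] {A : ValuationSubring Qb}

/-- (L1) -/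
theorem inSpan_of_inertia_equivariant (hA : A.LiesOverPrime ℓ) {Y : Type} [Finite Y]
    [MulAction Gal Y] (hY : IsSmoothAct Y) (ψ : Y → Qb) (hψ : ∀ y, ψ y ∈ A)
    (hI : ∀ σ ∈ A.inertiaSubgroupIn ℚ, ∀ y, ψ (σ • y) = σ (ψ y)) : InSpan ℓ A ψ := by
  obtain ⟨Fr, hFr⟩ := Fermat.Agent.Lib.Frobenius.exists_isFrobeniusAt A ℓ Fact.out hA
  set S : Set (Y → Qb) :=
    {φ | (∀ y, φ y ∈ A) ∧ ∀ σ ∈ A.inertiaSubgroupIn ℚ, gconj σ φ = φ} with hS
  have h0 : ∀ φ ∈ S, ∀ y, φ y ∈ A := fun φ hφ => hφ.1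
  have hI' : ∀ φ ∈ S, ∀ σ ∈ A.inertiaSubgroupIn ℚ, gconj σ φ = φ := fun φ hφ => hφ.2
  have hF : ∀ φ ∈ S, gconj Fr φ ∈ S := by
    intro φ hφ
    refine ⟨fun y => frob_mem hFr (hφ.1 _), fun σ hσ => ?_⟩
    have h1 : σ * Fr = Fr * (Fr⁻¹ * σ * Fr) := by group
    rw [← gconj_mul, h1, gconj_mul, hφ.2 _ (frob_conj_inertia hFr hσ)]
  have hℓ0 : (ℓ : Qb) ≠ 0 := by
    have : (ℓ : ℕ) ≠ 0 := (Fact.out : ℓ.Prime).ne_zero
    exact_mod_cast this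
  have hsep : ∀ x y : Y, x ≠ y → ∃ φ ∈ S, φ x ≠ φ y := by
    intro x y hxy
    obtain ⟨φ, hφe, hφne⟩ := exists_isEqv_ne hY hxy
    obtain ⟨c, hc⟩ := exists_pow_mul_mem_finite hA φ
    refine ⟨fun z => (ℓ : Qb) ^ c * φ z, ⟨hc, fun σ _ => ?_⟩, ?_⟩
    · rw [gconj_eq_self_iff]
      intro z
      rw [hφe σ z, map_mul, map_pow, map_natCast]
    · intro h
      exact hφne (mul_left_cancel₀ (pow_ne_zero c hℓ0) h)
  have hψS : ψ ∈ S := ⟨hψ, fun σ hσ => (gconj_eq_self_iff σ ψ).2 (hI σ hσ)⟩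
  have key := adjoin_le_span_eqvOrder hA hFr hY S h0 hI' hF hsep
    (Algebra.subset_adjoin (R := A) hψS)
  rw [inSpan_iff_mem_span]
  refine Submodule.span_mono ?_ key
  intro φ hφ
  obtain ⟨hφe, hφΛ⟩ := (mem_eqvOrder hA _ φ).1 hφ
  exact isIntEquiv_of_isEqv hA hφe (fun y => adjoin_mem_val S h0 hφΛ y)

end Fermat.Agent.S19
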