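/-
S19 block LOC, (L2): descent of `InSpan` along a surjective equivariant map of finite `Gal`-sets.
Owner: helper174 (task 1641; architect helper32).

Proof.  `M'` := the `ℤ_(ℓ)`-module of equivariant integral functions on `W'` (free of finite rank), `S₀ ⊆ M'`
the functions factoring through `π` : saturated, hence the image of a projection `P` (PID).  A basis
of `M'` is independent over `ℚ̄`, so `P` extends to a `ℚ̄`-linear endomorphism `T` of `W' → ℚ̄`.
`T` is the identity on the `ℚ̄`-span of `S₀`, which contains every `φ ∘ π` (equivariant integral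
functions span all the functions on the smooth `Gal`-set `W`), and it maps the `A`-span of `M'` into
the `A`-span of `S₀`.
-/
import Fermat.Agent.S19.InSpan
import Fermat.Agent.S19.IntEquivFG
import Fermat.Agent.S19.ClosureQuot
import Fermat.Agent.S19.T.Separate

set_option autoImplicit false
set_option linter.unusedSectionVars false
set_option linter.unusedVariables false

namespace Fermat.Agent.S19

namespace LocL2

variable {ℓ : ℕ} [Fact ℓ.Prime]

/-- the equivariant integral functions span all the functions on a finite smooth `Gal`-set -/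
theorem span_isIntEquiv_eq_top {W : Type} [Finite W] [MulAction Gal W] (hW : IsSmoothAct W) :
    Submodule.span Qb {ψ : W → Qb | IsIntEquiv ℓ ψ} = ⊤ := by
  have := Fintype.ofFinite W
  let Mo : Submonoid (W → Qb) :=
    { carrier := {ψ | IsIntEquiv ℓ ψ}
      mul_mem' := fun ha hb => IsIntEquiv.mul ha hb
      one_mem' := ⟨fun σ w => by simp, fun w => isIntegral_one⟩ }
  have h1 : Algebra.adjoin Qb {ψ : W → Qb | IsIntEquiv ℓ ψ} = ⊤ := by
    refine subalgebra_eq_top_of_separates _ fun x y hxy => ?_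
    obtain ⟨φ, hφ, hne⟩ := exists_isEqv_ne hW hxy
    obtain ⟨m, hm, hint⟩ := IntEquivFG.exists_smul_isIntEquiv (p := ℓ) (f := φ) hφ
    refine ⟨m • φ, Algebra.subset_adjoin hint, fun h => hne ?_⟩
    exact smul_right_injective Qb hm h
  have h2 := Algebra.adjoin_eq_span Qb {ψ : W → Qb | IsIntEquiv ℓ ψ}
  have h3 : Submonoid.closure {ψ : W → Qb | IsIntEquiv ℓ ψ} = Mo := Submonoid.closure_eq Mo
  rw [h1, h3, Algebra.top_toSubmodule] at h2
  exact h2.symm

variable {W' W : Type} [MulAction Gal W'] [MulAction Gal W]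

theorem isIntEquiv_comp {π : W' → W} (heq : ∀ (σ : Gal) (w : W'), π (σ • w) = σ • π w)
    {ψ : W → Qb} (hψ : IsIntEquiv ℓ ψ) : IsIntEquiv ℓ (ψ ∘ π) :=
  ⟨fun σ w => by simp only [Function.comp_apply, heq, hψ.1], fun w => hψ.2 (π w)⟩

theorem isIntEquiv_of_comp {π : W' → W} (hπ : Function.Surjective π)
    (heq : ∀ (σ : Gal) (w : W'), π (σ • w) = σ • π w)
    {ψ : W → Qb} (hψ : IsIntEquiv ℓ (ψ ∘ π)) : IsIntEquiv ℓ ψ := by
  refine ⟨fun σ w => ?_, fun w => ?_⟩
  · obtain ⟨w', rfl⟩ := hπ w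
    rw [← heq]
    exact hψ.1 σ w'
  · obtain ⟨w', rfl⟩ := hπ w
    exact hψ.2 w'

/-- the extension of the projection -/
theorem exists_extension [Finite W'] (π : W' → W) :
    ∃ T : (W' → Qb) →ₗ[Qb] (W' → Qb),
      (∀ f : W' → Qb, IsIntEquiv ℓ f → IsIntEquiv ℓ (T f) ∧ ∃ ψ : W → Qb, T f = ψ ∘ π) ∧
      ∀ ψ : W → Qb, IsIntEquiv ℓ (ψ ∘ π) → T (ψ ∘ π) = ψ ∘ π := by
  have := Fintype.ofFinite W'
  have hPID := Rl_isPrincipalIdealRing ℓ
  obtain ⟨r, ⟨bas⟩⟩ := IntEquivFG.core (W := W') ℓ hPID (mem_Rl_of_isIntegral ℓ)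
  have hfin : Module.Finite (Rl ℓ) (IntEquivFG.intSub ℓ W') := Module.Finite.of_basis bas
  -- the functions factoring through `π`
  let Fac : Submodule Qb (W' → Qb) := LinearMap.range (LinearMap.funLeft Qb Qb π)
  let S₀ : Submodule (Rl ℓ) (IntEquivFG.intSub ℓ W') :=
    (Fac.restrictScalars (Rl ℓ)).comap (IntEquivFG.intSub ℓ W').subtype
  have hsat : ∀ (c : Rl ℓ) (x : IntEquivFG.intSub ℓ W'), c ≠ 0 → c • x ∈ S₀ → x ∈ S₀ := by
    intro c x hc hx
    have hx' : (c • (x : W' → Qb)) ∈ Fac := hx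
    have hc' : algebraMap (Rl ℓ) Qb c ≠ 0 := by
      intro h0
      have h0' : algebraMap ℚ Qb (c : ℚ) = 0 := h0
      rw [map_eq_zero] at h0'
      exact hc (Subtype.ext h0')
    have h1 : (x : W' → Qb) = (algebraMap (Rl ℓ) Qb c)⁻¹ • (c • (x : W' → Qb)) := by
      rw [← algebraMap_smul Qb c (x : W' → Qb), smul_smul, inv_mul_cancel₀ hc', one_smul]
    show (x : W' → Qb) ∈ Fac
    rw [h1]
    exact Fac.smul_mem _ hx'
  obtain ⟨P, hP1, hP2⟩ := ClosureQuot.exists_projection S₀ hsat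
  -- independence over `ℚ̄`
  have hli : LinearIndependent Qb (fun i => (bas i : W' → Qb)) :=
    linearIndependent_of_equivariant' ℓ _ (fun i => (bas i).2.1)
      (bas.linearIndependent.map' (IntEquivFG.intSub ℓ W').subtype (Submodule.ker_subtype _))
  let L : (Fin r → Qb) →ₗ[Qb] (W' → Qb) := Fintype.linearCombination Qb (fun i => (bas i : W' → Qb))
  let L' : (Fin r → Qb) →ₗ[Qb] (W' → Qb) :=
    Fintype.linearCombination Qb (fun i => (P (bas i) : W' → Qb))
  have hL : LinearMap.ker L = ⊥ := by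
    rw [LinearMap.ker_eq_bot]
    exact hli.fintypeLinearCombination_injective
  obtain ⟨g, hg⟩ := L.exists_leftInverse_of_injective hL
  let T : (W' → Qb) →ₗ[Qb] (W' → Qb) := L' ∘ₗ g
  have hTb : ∀ i, T (bas i : W' → Qb) = (P (bas i) : W' → Qb) := by
    intro i
    have h1 : L (Pi.single i 1) = (bas i : W' → Qb) := by
      simp [L, Fintype.linearCombination_apply_single]
    have h2 : g (bas i : W' → Qb) = Pi.single i 1 := by
      rw [← h1]
      exact congrArg (fun f => f (Pi.single i 1)) hg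
    show L' (g (bas i : W' → Qb)) = _
    rw [h2]
    simp [L', Fintype.linearCombination_apply_single]
  have hT : (T.restrictScalars (Rl ℓ)) ∘ₗ (IntEquivFG.intSub ℓ W').subtype
      = (IntEquivFG.intSub ℓ W').subtype ∘ₗ P := bas.ext fun i => hTb i
  have hT' : ∀ f : IntEquivFG.intSub ℓ W', T (f : W' → Qb) = (P f : W' → Qb) := fun f =>
    congrArg (fun F => F f) hT
  refine ⟨T, fun f hf => ?_, fun ψ hψ => ?_⟩
  · rw [hT' ⟨f, hf⟩]
    refine ⟨(P ⟨f, hf⟩).2, ?_⟩
    obtain ⟨ψ, hψ⟩ := hP1 ⟨f, hf⟩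
    exact ⟨ψ, hψ.symm⟩
  · rw [hT' ⟨ψ ∘ π, hψ⟩, hP2 ⟨ψ ∘ π, hψ⟩ ⟨ψ, rfl⟩]

end LocL2

variable {ℓ : ℕ} [Fact ℓ.Prime] {A : ValuationSubring Qb}

/-- (L2) -/
theorem InSpan.of_comp_surjective (hA : A.LiesOverPrime ℓ) {W' W : Type} [Finite W'] [Finite W]
    [MulAction Gal W'] [MulAction Gal W] (hW : IsSmoothAct W) (π : W' → W)
    (hπ : Function.Surjective π) (heq : ∀ (σ : Gal) (w : W'), π (σ • w) = σ • π w) {φ : W → Qb}
    (h : InSpan ℓ A (φ ∘ π)) : InSpan ℓ A φ := by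
  obtain ⟨T, hT1, hT2⟩ := LocL2.exists_extension (ℓ := ℓ) π
  -- `T` fixes `φ ∘ π`
  have hfix : T (φ ∘ π) = φ ∘ π := by
    have hφ : φ ∈ Submodule.span Qb {ψ : W → Qb | IsIntEquiv ℓ ψ} := by
      rw [LocL2.span_isIntEquiv_eq_top hW]
      exact Submodule.mem_top
    have h1 : Set.EqOn (T ∘ₗ LinearMap.funLeft Qb Qb π) (LinearMap.funLeft Qb Qb π)
        {ψ : W → Qb | IsIntEquiv ℓ ψ} := fun ψ hψ => hT2 ψ (LocL2.isIntEquiv_comp heq hψ)
    exact LinearMap.eqOn_span h1 hφ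
  -- `T` maps the `A`-span into the `A`-span of the pull-backs
  rw [inSpan_iff_mem_span] at h ⊢
  have h2 : (Submodule.span A {s : W' → Qb | IsIntEquiv ℓ s}).map (T.restrictScalars A)
      ≤ (Submodule.span A {s : W → Qb | IsIntEquiv ℓ s}).map (LinearMap.funLeft A Qb π) := by
    rw [Submodule.map_span_le]
    intro f hf
    obtain ⟨h3, ψ, h4⟩ := hT1 f hf
    refine ⟨ψ, Submodule.subset_span ?_, h4.symm⟩
    rw [h4] at h3
    exact LocL2.isIntEquiv_of_comp hπ heq h3
  obtain ⟨ψ, hψ, h5⟩ := h2 ⟨φ ∘ π, h, hfix⟩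
  have h6 : ψ = φ := by
    funext w
    obtain ⟨w', rfl⟩ := hπ w
    exact congrFun h5 w'
  rwa [← h6]

end Fermat.Agent.S19
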