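/-
S19 block LOC, step (L3): `inSpan_of_inertia_local` from (L1) and (L2), which are taken as explicit
hypotheses `H1`, `H2` here (so that this file does not depend on their proofs).  Owner: helper277.

* `orbFun I y0 c` : the function `ι • y0 ↦ ι c` (`ι ∈ I`), zero outside of the `I`-orbit of `y0`; well
  defined when the stabiliser of `y0` in `I` fixes `c`;
* `inSpan_of_orbits` : a function which on every `I_A`-orbit has the shape `ι • y0 ↦ ∑ a_k ι(c_k)`,
  the `c_k` being fixed by the stabiliser of `y0`, is a sum over orbit representatives of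
  `a_k • orbFun`;
* `GalSet L` : the `Gal`-set `Gal(L/ℚ)` (left multiplication); on `W × GalSet L` the stabilisers fix `L`.
-/
import Fermat.Agent.S19.Loc.Calc
import Fermat.Agent.S19.T.Conj
import Fermat.Agent.S19.InSpan

set_option autoImplicit false

namespace Fermat.Agent.S19

namespace LocL3

section Orb

variable {Y : Type} [MulAction Gal Y] (I : Subgroup Gal)

open Classical in
/-- `ι • y0 ↦ ι c` on the `I`-orbit of `y0`, zero elsewhere. -/
noncomputable def orbFun (y0 : Y) (c : Qb) : Y → Qb := fun y =>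
  if h : ∃ ι ∈ I, y = ι • y0 then h.choose c else 0

variable {I} {y0 : Y} {c : Qb}

theorem orbFun_smul (hc : ∀ ι ∈ I, ι • y0 = y0 → ι c = c) {ι : Gal} (hι : ι ∈ I) :
    orbFun I y0 c (ι • y0) = ι c := by
  have h : ∃ ι' ∈ I, ι • y0 = ι' • y0 := ⟨ι, hι, rfl⟩
  rw [orbFun, dif_pos h]
  obtain ⟨h1, h2⟩ := h.choose_spec
  have h3 : (ι⁻¹ * h.choose) • y0 = y0 := by rw [mul_smul, ← h2, inv_smul_smul]
  have h4 := hc _ (I.mul_mem (I.inv_mem hι) h1) h3
  have h5 : ι ((ι⁻¹ * h.choose) c) = h.choose c := by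
    rw [AlgEquiv.mul_apply]
    exact ι.apply_symm_apply _
  rw [← h5, h4]

theorem orbFun_of_not {y : Y} (h : ¬ ∃ ι ∈ I, y = ι • y0) : orbFun I y0 c y = 0 := dif_neg h

theorem orbFun_equivariant (hc : ∀ ι ∈ I, ι • y0 = y0 → ι c = c) {σ : Gal} (hσ : σ ∈ I) (y : Y) :
    orbFun I y0 c (σ • y) = σ (orbFun I y0 c y) := by
  by_cases h : ∃ ι ∈ I, y = ι • y0
  · obtain ⟨ι, hι, rfl⟩ := h
    rw [← mul_smul, orbFun_smul hc (I.mul_mem hσ hι), orbFun_smul hc hι]
    rfl
  · rw [orbFun_of_not h, map_zero, orbFun_of_not]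
    rintro ⟨ι, hι, h'⟩
    exact h ⟨σ⁻¹ * ι, I.mul_mem (I.inv_mem hσ) hι, by rw [mul_smul, ← h', inv_smul_smul]⟩

variable (I Y) in
/-- the orbit relation of `I` -/
def orbSetoid : Setoid Y where
  r y y' := ∃ ι ∈ I, y = ι • y'
  iseqv :=
    { refl := fun y => ⟨1, I.one_mem, (one_smul _ y).symm⟩
      symm := by
        rintro y y' ⟨ι, hι, rfl⟩
        exact ⟨ι⁻¹, I.inv_mem hι, (inv_smul_smul ι y').symm⟩
      trans := by
        rintro y y' y'' ⟨ι, hι, rfl⟩ ⟨ι', hι', rfl⟩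
        exact ⟨ι * ι', I.mul_mem hι hι', (mul_smul ι ι' y'').symm⟩ }

end Orb

variable {ℓ : ℕ} [Fact ℓ.Prime] {A : ValuationSubring Qb}

/-- the statement (L1) -/
def StatementL1 (ℓ : ℕ) [Fact ℓ.Prime] (A : ValuationSubring Qb) : Prop :=
  ∀ {Y : Type} [Finite Y] [MulAction Gal Y], IsSmoothAct Y → ∀ ψ : Y → Qb, (∀ y, ψ y ∈ A) →
    (∀ σ ∈ A.inertiaSubgroupIn ℚ, ∀ y, ψ (σ • y) = σ (ψ y)) → InSpan ℓ A ψ

/-- the statement (L2) -/
def StatementL2 (ℓ : ℕ) [Fact ℓ.Prime] (A : ValuationSubring Qb) : Prop :=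
  ∀ {W' W : Type} [Finite W'] [Finite W] [MulAction Gal W'] [MulAction Gal W], IsSmoothAct W →
    ∀ π : W' → W, Function.Surjective π → (∀ (σ : Gal) (w : W'), π (σ • w) = σ • π w) →
    ∀ {φ : W → Qb}, InSpan ℓ A (φ ∘ π) → InSpan ℓ A φ

theorem orbFun_mem {Y : Type} [MulAction Gal Y] {y0 : Y} {c : Qb} (hcA : c ∈ A) (y : Y) :
    orbFun (A.inertiaSubgroupIn ℚ) y0 c y ∈ A := by
  by_cases h : ∃ ι ∈ A.inertiaSubgroupIn ℚ, y = ι • y0
  · rw [orbFun, dif_pos h]
    exact inertia_apply_mem h.choose_spec.1 hcA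
  · rw [orbFun_of_not h]
    exact A.zero_mem

theorem inSpan_of_orbits (H1 : StatementL1 ℓ A) {Y : Type} [Finite Y] [MulAction Gal Y]
    (hY : IsSmoothAct Y) (F : Y → Qb)
    (h : ∀ y0 : Y, ∃ (m : ℕ) (a c : Fin m → Qb), (∀ k, a k ∈ A) ∧ (∀ k, c k ∈ A) ∧
      (∀ k, ∀ ι ∈ A.inertiaSubgroupIn ℚ, ι • y0 = y0 → ι (c k) = c k) ∧
      ∀ ι ∈ A.inertiaSubgroupIn ℚ, F (ι • y0) = ∑ k, a k * ι (c k)) : InSpan ℓ A F := by
  classical
  choose m a c ha hc hstab hF using h
  set I := A.inertiaSubgroupIn ℚ with hI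
  let s : Setoid Y := orbSetoid Y I
  have hfin : Finite (Quotient s) := inferInstance
  cases nonempty_fintype (Quotient s)
  have hloc : ∀ (y1 : Y) (ι : Gal), ι ∈ I → F (ι • y1) =
      (∑ k : Fin (m y1), (fun _ : Y => a y1 k) * orbFun I y1 (c y1 k)) (ι • y1) := by
    intro y1 ι hι
    rw [hF _ ι hι, Finset.sum_apply]
    refine Finset.sum_congr rfl fun k _ => ?_
    rw [Pi.mul_apply, orbFun_smul (hstab _ k) hι]
  have key : F = ∑ q : Quotient s, ∑ k : Fin (m q.out),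
      (fun _ : Y => a q.out k) * orbFun I q.out (c q.out k) := by
    funext y
    rw [Finset.sum_apply, Finset.sum_eq_single (Quotient.mk s y)]
    · obtain ⟨ι, hι, hy⟩ : ∃ ι ∈ I, y = ι • (Quotient.mk s y).out :=
        s.symm (Quotient.mk_out y)
      have h1 := hloc (Quotient.mk s y).out ι hι
      rw [← hy] at h1
      exact h1
    · intro q _ hq
      rw [Finset.sum_apply]
      refine Finset.sum_eq_zero fun k _ => ?_
      rw [Pi.mul_apply, orbFun_of_not, mul_zero]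
      intro hex
      apply hq
      have h1 : Quotient.mk s y = Quotient.mk s q.out := Quotient.sound hex
      rw [h1, Quotient.out_eq]
    · intro hn
      exact absurd (Finset.mem_univ _) hn
  rw [key, inSpan_iff_mem_span]
  refine Submodule.sum_mem _ fun q _ => Submodule.sum_mem _ fun k _ => ?_
  rw [← inSpan_iff_mem_span]
  exact (InSpan.const (ha _ k)).mul (H1 hY _ (orbFun_mem (hc _ k))
    (fun σ hσ y => orbFun_equivariant (hstab _ k) hσ y))

/-! ### the `Gal`-set `Gal(L/ℚ)` -/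

/-- `Gal(L/ℚ)` as a `Gal`-set (left multiplication through the restriction). -/
def GalSet (L : IntermediateField ℚ Qb) : Type := L ≃ₐ[ℚ] L

noncomputable instance instMulActionGalSet (L : IntermediateField ℚ Qb) [Normal ℚ L] :
    MulAction Gal (GalSet L) where
  smul σ t := (AlgEquiv.restrictNormalHom L σ * (show L ≃ₐ[ℚ] L from t) : L ≃ₐ[ℚ] L)
  one_smul t := by
    show (AlgEquiv.restrictNormalHom L (1 : Gal) * (show L ≃ₐ[ℚ] L from t) : L ≃ₐ[ℚ] L) = t
    rw [map_one, one_mul]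
  mul_smul σ τ t := by
    show (AlgEquiv.restrictNormalHom L (σ * τ) * (show L ≃ₐ[ℚ] L from t) : L ≃ₐ[ℚ] L) =
      AlgEquiv.restrictNormalHom L σ * (AlgEquiv.restrictNormalHom L τ * (show L ≃ₐ[ℚ] L from t))
    rw [map_mul, mul_assoc]

instance instFiniteGalSet (L : IntermediateField ℚ Qb) [FiniteDimensional ℚ L] : Finite (GalSet L) :=
  inferInstanceAs (Finite (L ≃ₐ[ℚ] L))

theorem smul_GalSet_eq_iff {L : IntermediateField ℚ Qb} [Normal ℚ L] (σ : Gal) (t : GalSet L) :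
    σ • t = t ↔ AlgEquiv.restrictNormalHom L σ = 1 := by
  show (AlgEquiv.restrictNormalHom L σ * (show L ≃ₐ[ℚ] L from t) : L ≃ₐ[ℚ] L) = t ↔ _
  exact mul_eq_right

theorem restrict_eq_one_iff {L : IntermediateField ℚ Qb} [Normal ℚ L] (σ : Gal) :
    AlgEquiv.restrictNormalHom L σ = 1 ↔ ∀ x ∈ L, σ x = x := by
  constructor
  · intro h x hx
    have h1 := AlgEquiv.restrictNormal_commutes σ L ⟨x, hx⟩
    have h2 : AlgEquiv.restrictNormal σ L = 1 := h
    rw [h2] at h1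
    exact h1.symm
  · intro h
    ext x
    have h1 := AlgEquiv.restrictNormal_commutes σ L x
    have h2 : σ (algebraMap L Qb x) = algebraMap L Qb x := h _ x.2
    rw [h2] at h1
    exact h1

/-- **LOC**, relative to (L1) and (L2). -/
theorem inSpan_of_inertia_local_aux (H1 : StatementL1 ℓ A) (H2 : StatementL2 ℓ A) {W : Type}
    [Finite W] [MulAction Gal W] (hW : IsSmoothAct W) (φ : W → Qb)
    (h : ∀ w0 : W, IsSI A (fun σ => φ (σ • w0))) : InSpan ℓ A φ := by
  choose m a c ha hc hφ using h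
  obtain ⟨L, hfd, hgal, -, hcL, hfix⟩ :=
    exists_level hW (ι := Σ w0 : W, Fin (m w0)) (fun i _ => c i.1 i.2) ⊥
  have hnorm : Normal ℚ L := hgal.to_normal
  have hY : IsSmoothAct (W × GalSet L) := by
    refine ⟨L, hfd, fun σ hσ y => Prod.ext (hfix σ hσ y.1) ?_⟩
    show σ • y.2 = y.2
    rw [smul_GalSet_eq_iff, restrict_eq_one_iff]
    intro x hx
    exact (IntermediateField.mem_fixingSubgroup_iff L σ).1 hσ x hx
  refine H2 (W' := W × GalSet L) hW Prod.fst (fun w => ⟨(w, (1 : L ≃ₐ[ℚ] L)), rfl⟩)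
    (fun _ _ => rfl) ?_
  refine inSpan_of_orbits H1 hY _ fun y0 => ⟨m y0.1, a y0.1, c y0.1, ha y0.1, hc y0.1, ?_, ?_⟩
  · intro k ι _ hstab
    have h1 : ι • y0.2 = y0.2 := congrArg Prod.snd hstab
    rw [smul_GalSet_eq_iff, restrict_eq_one_iff] at h1
    exact h1 _ (hcL ⟨y0.1, k⟩ y0.1)
  · intro ι hι
    exact hφ y0.1 ι hι

end LocL3

end Fermat.Agent.S19
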