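/-
S19 block LOC, main theorem: membership in the `A`-span of the equivariant integral functions can be
tested on inertia orbits, with arbitrary (non rational) expansions.
(architect helper32; L1, L2, L3 in the files of the same name.)

Proof plan.
(L1) `inSpan_of_inertia_equivariant` is `adjoin_le_span_eqvOrder` (T/Descent.lean) applied to the set `S`
     of ALL `A`-valued inertia-invariant functions (stable under `gconj Fr` by `frob_mem`,
     `frob_conj_inertia`; separates points by `exists_isEqv_ne` + `exists_pow_mul_mem_finite`), a
     Frobenius being provided by `Lib.Frobenius.exists_isFrobeniusAt`.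
(L2) `InSpan.of_comp_surjective` : `M` := span of the basis `s_i` of `fg_intEquiv` on `W'`,
     `N := {ψ ∘ π}` is saturated in `M`, hence a direct summand (PID); a basis of `N` together with a
     basis of a complement is independent over `ℚ̄` (`linearIndependent_of_equivariant'`); `φ ∘ π`
     lies in the `ℚ̄`-span of `N` (equivariant functions span all functions on the smooth `G`-set
     `W`: `exists_conductor`), so its complement coordinates vanish and the others are in `A`.
(L3) `W' := W × Gal(L/ℚ)` (`L` a level for `W` and for all `c_k(w0)`), `ρ_j` representatives of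
     `I_L \ Gal(L/ℚ)`, `Ψ_{j,w0,c}(w, τ) := ι(c) · [w = ι w0]` if `τ = ι ρ_j`, `ι ∈ I_L`, else `0` : an
     `A`-valued inertia-invariant function, and
     `φ(w) = ∑_j ∑_{w0} ∑_k a_k(w0) Ψ_{j,w0,c_k(w0)}(w, τ)` exactly.
-/
import Fermat.Agent.S19.Loc.Calc
import Fermat.Agent.S19.Loc.L1
import Fermat.Agent.S19.Loc.L2
import Fermat.Agent.S19.Loc.L3
import Fermat.Agent.S19.T.Descent
import Fermat.Agent.S19.InSpan

set_option autoImplicit false

namespace Fermat.Agent.S19

variable {ℓ : ℕ} [Fact ℓ.Prime] {A : ValuationSubring Qb}

/-- **LOC.** -/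
theorem inSpan_of_inertia_local (hA : A.LiesOverPrime ℓ) {W : Type} [Finite W] [MulAction Gal W]
    (hW : IsSmoothAct W) (φ : W → Qb) (h : ∀ w0 : W, IsSI A (fun σ => φ (σ • w0))) :
    InSpan ℓ A φ :=
  LocL3.inSpan_of_inertia_local_aux
    (fun hY ψ hψ hI => inSpan_of_inertia_equivariant hA hY ψ hψ hI)
    (fun hW π hπ heq _ h => InSpan.of_comp_surjective hA hW π hπ heq h) hW φ h

end Fermat.Agent.S19
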